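/-
Programme AV (S26 + S27), brick F1a (helper34), file 2/5: **the integral closure of `K[t]` in a
function field `F` finite over `K(t)`**, as a `K`-subalgebra of `F`.

For `t : F` transcendental over `K` with `F` finite separable over `K⟮t⟯`,
`intCl K t : Subalgebra K F` (membership: integral over `Algebra.adjoin K {t}`, by `Iff.rfl`) is
* a Dedekind domain (`isDedekindDomain_intCl`) with fraction field `F` (`isFractionRing_intCl`);
* of finite type over `K` (`finiteType_intCl`);
* finite and free as a `K[X]`-module through `X ↦ t` (`finite_aeval_intCl`, `free_aeval_intCl`).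
-/
import Mathlib

set_option autoImplicit false
set_option linter.style.haveILetI false
set_option linter.unusedSectionVars false

open scoped IntermediateField
open scoped IntermediateField.algebraAdjoinAdjoin
open Polynomial

namespace Fermat.Agent.AV.F1Model15.ChartAlg34

variable (K : Type*) {F : Type*} [Field K] [Field F] [Algebra K F]

/-- The integral closure of `K[t]` in `F`, as a `K`-subalgebra of `F`. -/
def intCl (t : F) : Subalgebra K F :=
  (integralClosure (Algebra.adjoin K {t}) F).restrictScalars K

variable {K}

theorem mem_intCl_iff {t f : F} : f ∈ intCl K t ↔ IsIntegral (Algebra.adjoin K {t}) f := Iff.rfl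

theorem adjoin_le_intCl (t : F) : Algebra.adjoin K {t} ≤ intCl K t := fun x hx =>
  mem_intCl_iff.mpr (isIntegral_algebraMap (R := Algebra.adjoin K {t}) (x := ⟨x, hx⟩))

theorem self_mem_intCl (t : F) : t ∈ intCl K t :=
  adjoin_le_intCl t (Algebra.self_mem_adjoin_singleton K t)

/-- `t` as an element of the integral closure of `K[t]`. -/
def genCl (t : F) : intCl K t := ⟨t, self_mem_intCl t⟩

@[simp] theorem coe_genCl (t : F) : ((genCl (K := K) t : intCl K t) : F) = t := rfl

section Instances

variable (t : F)

/-- The algebra structure `K[t] → intCl K t` (inclusion). -/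
@[reducible] def algebraAdjoinIntCl : Algebra (Algebra.adjoin K {t}) (intCl K t) :=
  (Subalgebra.inclusion (adjoin_le_intCl t)).toRingHom.toAlgebra

attribute [local instance] algebraAdjoinIntCl

theorem isScalarTower_adjoin_intCl : IsScalarTower (Algebra.adjoin K {t}) (intCl K t) F :=
  IsScalarTower.of_algebraMap_eq fun _ => rfl

theorem isScalarTower_base_adjoin_intCl :
    IsScalarTower K (Algebra.adjoin K {t}) (intCl K t) :=
  IsScalarTower.of_algebraMap_eq fun _ => rfl

theorem isIntegralClosure_intCl : IsIntegralClosure (intCl K t) (Algebra.adjoin K {t}) F :=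
  ⟨Subtype.val_injective, fun {x} => ⟨fun h => ⟨⟨x, h⟩, rfl⟩, by
    rintro ⟨y, rfl⟩
    exact y.2⟩⟩

end Instances

attribute [local instance] algebraAdjoinIntCl

theorem isPrincipalIdealRing_adjoin {t : F} (ht : Transcendental K t) :
    IsPrincipalIdealRing (Algebra.adjoin K {t}) :=
  IsPrincipalIdealRing.of_surjective
    (Polynomial.algEquivOfTranscendental K t ht).toRingEquiv.toRingHom
    (Polynomial.algEquivOfTranscendental K t ht).surjective

/-- In characteristic zero, `F` is separable over `K⟮t⟯` as soon as it is finite. -/
theorem isSeparable_adjoin_simple [CharZero K] (t : F) [FiniteDimensional K⟮t⟯ F] :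
    Algebra.IsSeparable K⟮t⟯ F := by
  have : CharZero K⟮t⟯ := charZero_of_injective_algebraMap (algebraMap K K⟮t⟯).injective
  exact Algebra.IsAlgebraic.isSeparable_of_perfectField

section Main

variable {t : F} (ht : Transcendental K t) [FiniteDimensional K⟮t⟯ F]
  [Algebra.IsSeparable K⟮t⟯ F]

include ht

theorem isDedekindDomain_intCl : IsDedekindDomain (intCl K t) := by
  have := isPrincipalIdealRing_adjoin ht
  have := isScalarTower_adjoin_intCl (K := K) t
  have := isIntegralClosure_intCl (K := K) t
  exact IsIntegralClosure.isDedekindDomain (Algebra.adjoin K {t}) K⟮t⟯ F (intCl K t)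

omit [Algebra.IsSeparable K⟮t⟯ F] in
theorem isFractionRing_intCl : IsFractionRing (intCl K t) F := by
  have := isScalarTower_adjoin_intCl (K := K) t
  have := isIntegralClosure_intCl (K := K) t
  exact IsIntegralClosure.isFractionRing_of_finite_extension (Algebra.adjoin K {t}) K⟮t⟯ F
    (intCl K t)

theorem finite_adjoin_intCl : Module.Finite (Algebra.adjoin K {t}) (intCl K t) := by
  have := isPrincipalIdealRing_adjoin ht
  have := isScalarTower_adjoin_intCl (K := K) t
  have := isIntegralClosure_intCl (K := K) t
  exact IsIntegralClosure.finite (Algebra.adjoin K {t}) K⟮t⟯ F (intCl K t)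

theorem free_adjoin_intCl : Module.Free (Algebra.adjoin K {t}) (intCl K t) := by
  have := isPrincipalIdealRing_adjoin ht
  have := isScalarTower_adjoin_intCl (K := K) t
  have := isIntegralClosure_intCl (K := K) t
  exact IsIntegralClosure.module_free (Algebra.adjoin K {t}) K⟮t⟯ F (intCl K t)

theorem finiteType_intCl : Algebra.FiniteType K (intCl K t) := by
  have := finite_adjoin_intCl ht
  have := isScalarTower_base_adjoin_intCl (K := K) t
  have h1 : Algebra.FiniteType K (Algebra.adjoin K ({t} : Set F)) :=
    Algebra.FiniteType.adjoin_of_finite (Set.finite_singleton t)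
  exact Algebra.FiniteType.trans h1 inferInstance

/-- `intCl K t` is finite and free as a `K[X]`-module through `X ↦ t`. -/
theorem finite_and_free_aeval_intCl :
    Module.Finite K[X] (Module.AEval K (intCl K t) (genCl (K := K) t)) ∧
      Module.Free K[X] (Module.AEval K (intCl K t) (genCl (K := K) t)) := by
  have hfin := finite_adjoin_intCl ht
  have hfree := free_adjoin_intCl ht
  let e : K[X] ≃+* Algebra.adjoin K {t} := (Polynomial.algEquivOfTranscendental K t ht).toRingEquiv
  haveI i1 : RingHomInvPair (e.symm : Algebra.adjoin K {t} →+* K[X])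
      (e : K[X] →+* Algebra.adjoin K {t}) := RingHomInvPair.of_ringEquiv_symm e
  haveI i2 : RingHomInvPair (e : K[X] →+* Algebra.adjoin K {t})
      (e.symm : Algebra.adjoin K {t} →+* K[X]) := RingHomInvPair.of_ringEquiv e
  let φ : intCl K t ≃ₛₗ[(e.symm : Algebra.adjoin K {t} →+* K[X])]
      Module.AEval K (intCl K t) (genCl (K := K) t) :=
    { (Module.AEval.of K (intCl K t) (genCl (K := K) t)).toAddEquiv with
      map_smul' := by
        intro a b
        obtain ⟨p, rfl⟩ := e.surjective a
        show Module.AEval.of K (intCl K t) (genCl t) ((e p) • b) =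
          (e.symm (e p)) • Module.AEval.of K (intCl K t) (genCl t) b
        rw [RingEquiv.symm_apply_apply, ← Module.AEval.of_aeval_smul]
        congr 1
        apply Subtype.ext
        show ((e p : Algebra.adjoin K {t}) : F) * (b : F) =
          ((aeval (genCl (K := K) t) p : intCl K t) : F) * (b : F)
        have h1 : ((e p : Algebra.adjoin K {t}) : F) = aeval t p := by
          show ((Polynomial.algEquivOfTranscendental K t ht p : Algebra.adjoin K {t}) : F) = _
          rw [Polynomial.algEquivOfTranscendental_apply, ← Subalgebra.aeval_coe]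
        have h2 : ((aeval (genCl (K := K) t) p : intCl K t) : F) = aeval t p := by
          rw [← Subalgebra.aeval_coe]
          rfl
        rw [h1, h2] }
  exact ⟨Module.Finite.of_surjective φ.toLinearMap φ.surjective, Module.Free.of_equiv φ⟩

theorem finite_aeval_intCl :
    Module.Finite K[X] (Module.AEval K (intCl K t) (genCl (K := K) t)) :=
  (finite_and_free_aeval_intCl ht).1

theorem free_aeval_intCl :
    Module.Free K[X] (Module.AEval K (intCl K t) (genCl (K := K) t)) :=
  (finite_and_free_aeval_intCl ht).2

end Main

end Fermat.Agent.AV.F1Model15.ChartAlg34
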