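/-
Programme AV (S26 + S27), brick F1a (helper34), file 3/5: **the overlap algebra
`B0[1/t] = B1[t]`**.

* `awaySub S x` : the subalgebra `S[1/x] = {f | ∃ n, x ^ n * f ∈ S}` of the field `F`;
* `isLocalization_away_of_mem_iff` : for `K`-subalgebras `S ≤ T` of a field `F` and `x ∈ S`,
  `x ≠ 0`, if `f ∈ T ↔ ∃ n, x ^ n * f ∈ S` then `T` is the localisation of `S` away from `x`;
* `mem_adjoin_pair_iff` : `K[t, t⁻¹] = K[t][1/t]`;
* `isIntegral_adjoin_pair_iff` : `f` is integral over `K[t, t⁻¹]` iff `t ^ n * f` is integral over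
  `K[t]` for some `n`;
* `intCl01 K t := (intCl K t)[1/t]`, `mem_intCl01_iff`, `mem_intCl01_iff_inv` (symmetric
  description through `t⁻¹`), `intCl_le_intCl01`, `intCl_inv_le_intCl01`, `away0`, `away1`.
-/
import Mathlib
import Fermat.Agent.AV.F1Model15.ChartAlg34.IntClosure

set_option autoImplicit false
set_option linter.style.haveILetI false
set_option linter.unusedSectionVars false

namespace Fermat.Agent.AV.F1Model15.ChartAlg34

variable {K F : Type*} [Field K] [Field F] [Algebra K F]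

/-- The subalgebra `S[1/x]` of `F`. -/
def awaySub (S : Subalgebra K F) (x : S) : Subalgebra K F where
  carrier := {f | ∃ n : ℕ, (x : F) ^ n * f ∈ S}
  mul_mem' := by
    rintro a b ⟨n, hn⟩ ⟨m, hm⟩
    refine ⟨n + m, ?_⟩
    have : (x : F) ^ (n + m) * (a * b) = ((x : F) ^ n * a) * ((x : F) ^ m * b) := by
      rw [pow_add]; ring
    rw [this]
    exact S.mul_mem hn hm
  add_mem' := by
    rintro a b ⟨n, hn⟩ ⟨m, hm⟩
    refine ⟨n + m, ?_⟩
    have : (x : F) ^ (n + m) * (a + b) =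
        (x : F) ^ m * ((x : F) ^ n * a) + (x : F) ^ n * ((x : F) ^ m * b) := by
      rw [pow_add]; ring
    rw [this]
    exact S.add_mem (S.mul_mem (S.pow_mem x.2 m) hn) (S.mul_mem (S.pow_mem x.2 n) hm)
  algebraMap_mem' := fun c => ⟨0, by simp⟩

theorem mem_awaySub_iff {S : Subalgebra K F} {x : S} {f : F} :
    f ∈ awaySub S x ↔ ∃ n : ℕ, (x : F) ^ n * f ∈ S := Iff.rfl

theorem le_awaySub (S : Subalgebra K F) (x : S) : S ≤ awaySub S x := fun f hf =>
  ⟨0, by simpa using hf⟩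

/-- **Localisation away from an element, inside a field.** -/
theorem isLocalization_away_of_mem_iff {S T : Subalgebra K F} (h : S ≤ T) (x : S)
    (hx : (x : F) ≠ 0) (hT : ∀ f : F, f ∈ T ↔ ∃ n : ℕ, (x : F) ^ n * f ∈ S) :
    letI := (Subalgebra.inclusion h).toRingHom.toAlgebra
    IsLocalization.Away x T := by
  letI := (Subalgebra.inclusion h).toRingHom.toAlgebra
  have hmap : ∀ s : S, ((algebraMap S T s : T) : F) = (s : F) := fun _ => rfl
  refine (isLocalization_iff (M := Submonoid.powers x) (S := T)).mpr ⟨?_, ?_, ?_⟩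
  · rintro ⟨_, n, rfl⟩
    have hinv : ((x : F)⁻¹) ^ n ∈ T :=
      (hT _).mpr ⟨n, by rw [← mul_pow, mul_inv_cancel₀ hx, one_pow]; exact S.one_mem⟩
    refine isUnit_iff_exists_inv.mpr ⟨⟨_, hinv⟩, Subtype.ext ?_⟩
    show ((algebraMap S T (x ^ n) : T) : F) * ((x : F)⁻¹) ^ n = 1
    rw [hmap, Subalgebra.coe_pow, ← mul_pow, mul_inv_cancel₀ hx, one_pow]
  · intro z
    obtain ⟨n, hn⟩ := (hT z).mp z.2
    refine ⟨(⟨(x : F) ^ n * z, hn⟩, ⟨x ^ n, n, rfl⟩), Subtype.ext ?_⟩
    show (z : F) * ((algebraMap S T (x ^ n) : T) : F) = (x : F) ^ n * z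
    rw [hmap, Subalgebra.coe_pow, mul_comm]
  · intro a b hab
    refine ⟨1, ?_⟩
    have hab' : (a : F) = b := by
      have := congrArg (fun z : T => (z : F)) hab
      simpa [hmap] using this
    rw [Subtype.ext hab']

/-- `K[t, t⁻¹] = K[t][1/t]` inside `F`. -/
theorem mem_adjoin_pair_iff {t : F} (ht : t ≠ 0) (f : F) :
    f ∈ Algebra.adjoin K ({t, t⁻¹} : Set F) ↔
      ∃ n : ℕ, t ^ n * f ∈ Algebra.adjoin K ({t} : Set F) := by
  constructor
  · intro hf
    have hle : Algebra.adjoin K ({t, t⁻¹} : Set F) ≤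
        awaySub (Algebra.adjoin K ({t} : Set F)) ⟨t, Algebra.self_mem_adjoin_singleton K t⟩ := by
      refine Algebra.adjoin_le ?_
      rintro x (rfl | rfl)
      · exact ⟨0, by simp [Algebra.self_mem_adjoin_singleton]⟩
      · refine ⟨1, ?_⟩
        show t ^ 1 * t⁻¹ ∈ Algebra.adjoin K ({t} : Set F)
        rw [pow_one, mul_inv_cancel₀ ht]
        exact Subalgebra.one_mem _
    exact hle hf
  · rintro ⟨n, hn⟩
    have h1 : t ^ n * f ∈ Algebra.adjoin K ({t, t⁻¹} : Set F) :=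
      Algebra.adjoin_mono (by simp) hn
    have h2 : t⁻¹ ∈ Algebra.adjoin K ({t, t⁻¹} : Set F) :=
      Algebra.subset_adjoin (by simp)
    have h3 : f = t⁻¹ ^ n * (t ^ n * f) := by
      rw [← mul_assoc, ← mul_pow, inv_mul_cancel₀ ht, one_pow, one_mul]
    rw [h3]
    exact Subalgebra.mul_mem _ (Subalgebra.pow_mem _ h2 n) h1

theorem adjoin_singleton_le_adjoin_pair (t : F) :
    Algebra.adjoin K ({t} : Set F) ≤ Algebra.adjoin K ({t, t⁻¹} : Set F) :=
  Algebra.adjoin_mono (by simp)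

/-- **Integral closure commutes with inverting `t`.** -/
theorem isIntegral_adjoin_pair_iff {t : F} (ht : t ≠ 0) (f : F) :
    IsIntegral (Algebra.adjoin K ({t, t⁻¹} : Set F)) f ↔ ∃ n : ℕ, t ^ n * f ∈ intCl K t := by
  letI alg : Algebra (Algebra.adjoin K ({t} : Set F)) (Algebra.adjoin K ({t, t⁻¹} : Set F)) :=
    (Subalgebra.inclusion (adjoin_singleton_le_adjoin_pair (K := K) t)).toRingHom.toAlgebra
  haveI : IsScalarTower (Algebra.adjoin K ({t} : Set F)) (Algebra.adjoin K ({t, t⁻¹} : Set F)) F :=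
    IsScalarTower.of_algebraMap_eq fun _ => rfl
  constructor
  · intro hf
    haveI : IsLocalization
        (Submonoid.powers (⟨t, Algebra.self_mem_adjoin_singleton K t⟩ :
          Algebra.adjoin K ({t} : Set F)))
        (Algebra.adjoin K ({t, t⁻¹} : Set F)) :=
      isLocalization_away_of_mem_iff (adjoin_singleton_le_adjoin_pair (K := K) t)
        ⟨t, Algebra.self_mem_adjoin_singleton K t⟩ ht (mem_adjoin_pair_iff ht)
    obtain ⟨⟨m, n, rfl⟩, hm⟩ := IsIntegral.exists_multiple_integral_of_isLocalization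
      (Submonoid.powers (⟨t, Algebra.self_mem_adjoin_singleton K t⟩ :
        Algebra.adjoin K ({t} : Set F))) f hf
    refine ⟨n, ?_⟩
    rw [mem_intCl_iff]
    rw [Submonoid.smul_def, Algebra.smul_def] at hm
    exact hm
  · rintro ⟨n, hn⟩
    have h1 : IsIntegral (Algebra.adjoin K ({t, t⁻¹} : Set F)) (t ^ n * f) :=
      (mem_intCl_iff.mp hn).tower_top
    have h2 : t⁻¹ ^ n ∈ Algebra.adjoin K ({t, t⁻¹} : Set F) :=
      Subalgebra.pow_mem _ (Algebra.subset_adjoin (by simp)) n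
    have h3 : IsIntegral (Algebra.adjoin K ({t, t⁻¹} : Set F)) (t⁻¹ ^ n) :=
      isIntegral_algebraMap (R := Algebra.adjoin K ({t, t⁻¹} : Set F)) (x := ⟨_, h2⟩)
    have h4 : f = t⁻¹ ^ n * (t ^ n * f) := by
      rw [← mul_assoc, ← mul_pow, inv_mul_cancel₀ ht, one_pow, one_mul]
    rw [h4]
    exact h3.mul h1

variable (K) in
/-- The overlap algebra `B01 = B0[1/t]`. -/
def intCl01 (t : F) : Subalgebra K F := awaySub (intCl K t) (genCl t)

theorem mem_intCl01_iff' {t f : F} : f ∈ intCl01 K t ↔ ∃ n : ℕ, t ^ n * f ∈ intCl K t := Iff.rfl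

theorem mem_intCl01_iff {t : F} (ht : t ≠ 0) (f : F) :
    f ∈ intCl01 K t ↔ IsIntegral (Algebra.adjoin K ({t, t⁻¹} : Set F)) f :=
  (isIntegral_adjoin_pair_iff ht f).symm

theorem mem_intCl01_iff_inv {t : F} (ht : t ≠ 0) (f : F) :
    f ∈ intCl01 K t ↔ ∃ n : ℕ, t⁻¹ ^ n * f ∈ intCl K t⁻¹ := by
  have hset : ({t⁻¹, t⁻¹⁻¹} : Set F) = {t, t⁻¹} := by rw [inv_inv, Set.pair_comm]
  have h := isIntegral_adjoin_pair_iff (K := K) (inv_ne_zero ht) f
  rw [hset] at h
  rw [mem_intCl01_iff ht, h]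

theorem intCl_le_intCl01 (t : F) : intCl K t ≤ intCl01 K t := le_awaySub _ _

theorem intCl_inv_le_intCl01 {t : F} (ht : t ≠ 0) : intCl K t⁻¹ ≤ intCl01 K t := fun f hf =>
  (mem_intCl01_iff_inv ht f).mpr ⟨0, by simpa using hf⟩

theorem away0 {t : F} (ht : t ≠ 0) :
    letI := (Subalgebra.inclusion (intCl_le_intCl01 (K := K) t)).toRingHom.toAlgebra
    IsLocalization.Away (genCl (K := K) t) (intCl01 K t) :=
  isLocalization_away_of_mem_iff (intCl_le_intCl01 t) (genCl t) ht fun _ => Iff.rfl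

theorem away1 {t : F} (ht : t ≠ 0) :
    letI := (Subalgebra.inclusion (intCl_inv_le_intCl01 (K := K) ht)).toRingHom.toAlgebra
    IsLocalization.Away (genCl (K := K) t⁻¹) (intCl01 K t) :=
  isLocalization_away_of_mem_iff (intCl_inv_le_intCl01 ht) (genCl t⁻¹) (inv_ne_zero ht)
    (mem_intCl01_iff_inv ht)

end Fermat.Agent.AV.F1Model15.ChartAlg34
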