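/-
Programme AV (S26 + S27), brick F1a (helper34), file 4/5: **regular everywhere implies constant**:
`B0 ∩ B1 = K`.

* `mem_bot_of_mem_adjoin_of_mem_adjoin_inv` : `K[t] ∩ K[t⁻¹] = K` for `t` transcendental;
* `transcendental_inv`, `adjoin_simple_inv` : `t⁻¹` is transcendental and `K⟮t⁻¹⟯ = K⟮t⟯`;
* `mem_bot_of_mem_intCl_of_mem_intCl_inv` : for `K` algebraically closed, an element integral over
  both `K[t]` and `K[t⁻¹]` is a constant (the coefficients of its minimal polynomial over `K(t)`
  lie in `K[t] ∩ K[t⁻¹] = K`).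
-/
import Mathlib
import Fermat.Agent.AV.F1Model15.ChartAlg34.IntClosure

set_option autoImplicit false
set_option linter.style.haveILetI false
set_option linter.unusedSectionVars false

open scoped IntermediateField
open scoped IntermediateField.algebraAdjoinAdjoin
open Polynomial

namespace Fermat.Agent.AV.F1Model15.ChartAlg34

variable {K F : Type*} [Field K] [Field F] [Algebra K F]

theorem transcendental_inv {t : F} (ht : Transcendental K t) : Transcendental K t⁻¹ := by
  intro h
  apply ht
  have := h.inv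
  rwa [inv_inv] at this

theorem adjoin_simple_inv (t : F) : K⟮t⁻¹⟯ = K⟮t⟯ := by
  apply le_antisymm
  · rw [IntermediateField.adjoin_simple_le_iff]
    exact inv_mem (IntermediateField.mem_adjoin_simple_self K t)
  · rw [IntermediateField.adjoin_simple_le_iff]
    have := inv_mem (IntermediateField.mem_adjoin_simple_self K t⁻¹)
    rwa [inv_inv] at this

/-- **`K[t] ∩ K[t⁻¹] = K`** for a transcendental `t`. -/
theorem mem_bot_of_mem_adjoin_of_mem_adjoin_inv {t : F} (ht : Transcendental K t) {x : F}
    (h0 : x ∈ Algebra.adjoin K ({t} : Set F)) (h1 : x ∈ Algebra.adjoin K ({t⁻¹} : Set F)) :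
    x ∈ (⊥ : Subalgebra K F) := by
  have ht0 : t ≠ 0 := fun h => ht (h ▸ isAlgebraic_zero)
  rw [Algebra.adjoin_singleton_eq_range_aeval] at h0 h1
  obtain ⟨p, rfl⟩ := h0
  obtain ⟨q, hq⟩ := h1
  have hq' : aeval t⁻¹ q = aeval t p := hq
  letI : Invertible t⁻¹ := invertibleOfNonzero (inv_ne_zero ht0)
  have hinv : ⅟(t⁻¹) = t := by rw [invOf_eq_inv, inv_inv]
  have h2 := eval₂_reflect_mul_pow (algebraMap K F) t⁻¹ q.natDegree q le_rfl
  rw [hinv] at h2
  have h3 : aeval t (reflect q.natDegree q) = aeval t (p * X ^ q.natDegree) := by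
    rw [map_mul, map_pow, aeval_X, ← hq', aeval_def, aeval_def, ← h2, mul_assoc, ← mul_pow,
      inv_mul_cancel₀ ht0, one_pow, mul_one]
  have hinj : Function.Injective (aeval t : K[X] →ₐ[K] F) := transcendental_iff_injective.mp ht
  have h4 : reflect q.natDegree q = p * X ^ q.natDegree := hinj h3
  have h5 : (p * X ^ q.natDegree).natDegree ≤ q.natDegree := by
    rw [← h4]
    exact natDegree_reflect_le.trans (by simp)
  by_cases hp : p = 0
  · subst hp
    rw [map_zero]
    exact Subalgebra.zero_mem _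
  · rw [natDegree_mul_X_pow q.natDegree hp] at h5
    have h6 : p.natDegree = 0 := by omega
    obtain ⟨c, rfl⟩ := natDegree_eq_zero.mp h6
    show aeval t (C c) ∈ (⊥ : Subalgebra K F)
    rw [aeval_C]
    exact Subalgebra.algebraMap_mem _ c

/-- The minimal polynomial over an intermediate field, mapped to the top field, only depends on
the intermediate field as a set. -/
theorem map_minpoly_congr {E E' : IntermediateField K F} (h : E = E') (f : F) :
    (minpoly E f).map (algebraMap E F) = (minpoly E' f).map (algebraMap E' F) := by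
  subst h
  rfl

/-- **Regular everywhere implies constant.** -/
theorem mem_bot_of_mem_intCl_of_mem_intCl_inv [IsAlgClosed K] {t : F} (ht : Transcendental K t)
    {f : F} (h0 : f ∈ intCl K t) (h1 : f ∈ intCl K t⁻¹) : f ∈ (⊥ : Subalgebra K F) := by
  have ht' : Transcendental K t⁻¹ := transcendental_inv ht
  have hPID := isPrincipalIdealRing_adjoin ht
  have hPID' := isPrincipalIdealRing_adjoin ht'
  have hint : IsIntegral K⟮t⟯ f := (mem_intCl_iff.mp h0).tower_top
  have e0 := minpoly.isIntegrallyClosed_eq_field_fractions' K⟮t⟯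
    (R := Algebra.adjoin K ({t} : Set F)) (S := F) (mem_intCl_iff.mp h0)
  have e1 := minpoly.isIntegrallyClosed_eq_field_fractions' K⟮t⁻¹⟯
    (R := Algebra.adjoin K ({t⁻¹} : Set F)) (S := F) (mem_intCl_iff.mp h1)
  have hq0 : (minpoly K⟮t⟯ f).map (algebraMap K⟮t⟯ F) =
      (minpoly (Algebra.adjoin K ({t} : Set F)) f).map
        (algebraMap (Algebra.adjoin K ({t} : Set F)) F) := by
    rw [e0, Polynomial.map_map, ← IsScalarTower.algebraMap_eq]
  have hq1 : (minpoly K⟮t⟯ f).map (algebraMap K⟮t⟯ F) =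
      (minpoly (Algebra.adjoin K ({t⁻¹} : Set F)) f).map
        (algebraMap (Algebra.adjoin K ({t⁻¹} : Set F)) F) := by
    rw [map_minpoly_congr (adjoin_simple_inv (K := K) t).symm f, e1, Polynomial.map_map,
      ← IsScalarTower.algebraMap_eq]
  have hcoeff : ∀ i, ((minpoly K⟮t⟯ f).map (algebraMap K⟮t⟯ F)).coeff i ∈
      (⊥ : Subalgebra K F) := fun i =>
    mem_bot_of_mem_adjoin_of_mem_adjoin_inv ht
      (by rw [hq0, coeff_map]; exact Subtype.mem _) (by rw [hq1, coeff_map]; exact Subtype.mem _)
  have hlift : (minpoly K⟮t⟯ f).map (algebraMap K⟮t⟯ F) ∈ Polynomial.lifts (algebraMap K F) := by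
    rw [Polynomial.lifts_iff_coeff_lifts]
    intro i
    exact Algebra.mem_bot.mp (hcoeff i)
  have hmonic : ((minpoly K⟮t⟯ f).map (algebraMap K⟮t⟯ F)).Monic := (minpoly.monic hint).map _
  obtain ⟨q₀, hq₀, -, hq₀m⟩ := Polynomial.lifts_and_natDegree_eq_and_monic hlift hmonic
  have hfint : IsIntegral K f := by
    refine ⟨q₀, hq₀m, ?_⟩
    rw [← Polynomial.eval_map, hq₀, Polynomial.eval_map, ← aeval_def, minpoly.aeval]
  have hdeg := IsAlgClosed.degree_eq_one_of_irreducible K (minpoly.irreducible hfint)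
  exact Algebra.mem_bot.mpr (minpoly.mem_range_of_degree_eq_one K f hdeg)

end Fermat.Agent.AV.F1Model15.ChartAlg34
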