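/-
Programme AV (S26 + S27), brick F1a (helper34), file 5/5: **`chartAlgExists : ChartAlgExists`** —
every function field of one variable over an algebraically closed field of characteristic zero has
a chart algebra (`Interface.lean` of helper15).

`t` from `SepTransc.exists_transcendental_finiteDimensional` (the rank of `Ω[F⁄K]` is one),
`B0 = intCl K t`, `B1 = intCl K t⁻¹` (`IntClosure`), `B01 = intCl01 K t = B0[1/t] = B1[t]`
(`Away`), `B0 ∩ B1 = K` (`Inter`).
-/
import Fermat.Agent.AV.F1Model15.Interface
import Fermat.Agent.AV.F1Model15.ChartAlg34.SepTransc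
import Fermat.Agent.AV.F1Model15.ChartAlg34.Away
import Fermat.Agent.AV.F1Model15.ChartAlg34.Inter

set_option autoImplicit false
set_option linter.style.haveILetI false

open scoped IntermediateField
open Polynomial

universe u

noncomputable section

namespace Fermat.Agent.AV.F1Model15

open ChartAlg34

/-- The chart algebra attached to a transcendental `t` with `F` finite separable over `K(t)`. -/
def ChartAlg34.chartAlgOf {K F : Type u} [Field K] [Field F] [Algebra K F] [IsAlgClosed K]
    (t : F) (ht : Transcendental K t) [FiniteDimensional K⟮t⟯ F] [Algebra.IsSeparable K⟮t⟯ F] :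
    ChartAlg K F :=
  have ht0 : t ≠ 0 := fun h => ht (h ▸ isAlgebraic_zero)
  have ht' : Transcendental K t⁻¹ := transcendental_inv ht
  haveI : FiniteDimensional K⟮t⁻¹⟯ F := by
    rw [adjoin_simple_inv (K := K) t]
    infer_instance
  haveI : Algebra.IsSeparable K⟮t⁻¹⟯ F := by
    rw [adjoin_simple_inv (K := K) t]
    infer_instance
  { t := t
    transc := ht
    B0 := intCl K t
    B1 := intCl K t⁻¹
    B01 := intCl01 K t
    t_mem := self_mem_intCl t
    s_mem := self_mem_intCl t⁻¹
    le0 := intCl_le_intCl01 t
    le1 := intCl_inv_le_intCl01 ht0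
    away0 := away0 ht0
    away1 := away1 ht0
    mem0_iff := fun _ => Iff.rfl
    mem1_iff := fun _ => Iff.rfl
    dedekind0 := isDedekindDomain_intCl ht
    dedekind1 := isDedekindDomain_intCl ht'
    frac0 := isFractionRing_intCl ht
    frac1 := isFractionRing_intCl ht'
    finiteType0 := finiteType_intCl ht
    finiteType1 := finiteType_intCl ht'
    finite0 := finite_aeval_intCl ht
    free0 := free_aeval_intCl ht
    finite1 := finite_aeval_intCl ht'
    free1 := free_aeval_intCl ht'
    inter := fun _ h0 h1 => mem_bot_of_mem_intCl_of_mem_intCl_inv ht h0 h1 }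

@[simp] theorem ChartAlg34.chartAlgOf_t {K F : Type u} [Field K] [Field F] [Algebra K F]
    [IsAlgClosed K] (t : F) (ht : Transcendental K t) [FiniteDimensional K⟮t⟯ F]
    [Algebra.IsSeparable K⟮t⟯ F] : (ChartAlg34.chartAlgOf t ht).t = t := rfl

/-- **The chart algebra of a separating transcendental element** (no hypothesis on the
characteristic). -/
theorem chartAlg_of_separable (K F : Type u) [Field K] [Field F] [Algebra K F] [IsAlgClosed K]
    (t : F) (ht : Transcendental K t) [FiniteDimensional K⟮t⟯ F] [Algebra.IsSeparable K⟮t⟯ F] :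
    ∃ alg : ChartAlg K F, alg.t = t :=
  ⟨ChartAlg34.chartAlgOf t ht, rfl⟩

/-- **F1a.**  Every function field of one variable over an algebraically closed field of
characteristic zero has a chart algebra. -/
theorem chartAlgExists : ChartAlgExists.{u} := by
  intro K F _ _ _ _ _ _ _
  obtain ⟨t, ht, hfin⟩ := exists_transcendental_finiteDimensional K F
    (AlgebraicCurve.IsCurveOver.finrank_kaehler (K := K) (F := F))
  have := isSeparable_adjoin_simple (K := K) t
  exact ⟨ChartAlg34.chartAlgOf t ht⟩

end Fermat.Agent.AV.F1Model15
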