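/-
Programme AV (S26 + S27), brick F1a (helper34), file 1/5: **a function field of one variable in
characteristic zero is finite over `K(t)` for a suitable transcendental `t`.**

* `finrank_kaehler_eq_card` : for an algebraically independent family `v : ι → F` with `F`
  separable algebraic over `K(v)`, `dim_F Ω[F⁄K] = #ι` (base change of `Ω` along the formally
  etale `K[v] → F`);
* `exists_transcendental_finiteDimensional` : if `K` is perfect, `F` essentially of finite type
  over `K` and `dim_F Ω[F⁄K] = 1`, there is `t : F` transcendental over `K` with `F` finite over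
  `K⟮t⟯`.
-/
import Mathlib

set_option autoImplicit false
set_option linter.style.haveILetI false

open scoped IntermediateField KaehlerDifferential
open scoped IntermediateField.algebraAdjoinAdjoin

namespace Fermat.Agent.AV.F1Model15.ChartAlg34

variable (K F : Type*) [Field K] [Field F] [Algebra K F]

/-- **The dimension of the differentials of a separably generated extension** is the cardinality of
a separating transcendence basis. -/
theorem finrank_kaehler_eq_card {ι : Type*} [Fintype ι] (v : ι → F)
    (hv : AlgebraicIndependent K v)
    [Algebra.IsSeparable (IntermediateField.adjoin K (Set.range v)) F] :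
    Module.finrank F Ω[F⁄K] = Fintype.card ι := by
  classical
  letI algPA : Algebra (MvPolynomial ι K) (Algebra.adjoin K (Set.range v)) :=
    (hv.aevalEquiv : MvPolynomial ι K →+* Algebra.adjoin K (Set.range v)).toAlgebra
  letI algPF : Algebra (MvPolynomial ι K) F := (MvPolynomial.aeval v).toRingHom.toAlgebra
  haveI : IsScalarTower K (MvPolynomial ι K) F := IsScalarTower.of_algebraMap_eq fun c => by
    show algebraMap K F c = MvPolynomial.aeval v (algebraMap K (MvPolynomial ι K) c)
    rw [AlgHom.commutes]
  haveI : IsScalarTower (MvPolynomial ι K) (Algebra.adjoin K (Set.range v)) F :=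
    IsScalarTower.of_algebraMap_eq fun p => by
      show MvPolynomial.aeval v p =
        algebraMap (Algebra.adjoin K (Set.range v)) F (hv.aevalEquiv p)
      rw [hv.algebraMap_aevalEquiv]
  haveI : Algebra.FormallyEtale (MvPolynomial ι K) (Algebra.adjoin K (Set.range v)) :=
    Algebra.FormallyEtale.of_equiv
      (AlgEquiv.ofRingEquiv (f := hv.aevalEquiv.toRingEquiv) fun _ => rfl)
  haveI : Algebra.FormallyEtale (Algebra.adjoin K (Set.range v))
      (IntermediateField.adjoin K (Set.range v)) :=
    .of_isLocalization (nonZeroDivisors _)
  haveI : Algebra.FormallyEtale (IntermediateField.adjoin K (Set.range v)) F :=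
    Algebra.FormallyEtale.of_isSeparable _ F
  haveI : Algebra.FormallyEtale (Algebra.adjoin K (Set.range v)) F :=
    .comp _ (IntermediateField.adjoin K (Set.range v)) _
  haveI : Algebra.FormallyEtale (MvPolynomial ι K) F :=
    .comp _ (Algebra.adjoin K (Set.range v)) _
  have ibc := KaehlerDifferential.isBaseChange_of_formallyEtale K (MvPolynomial ι K) F
  exact Module.finrank_eq_card_basis (ibc.basis (KaehlerDifferential.mvPolynomialBasis K ι))

/-- **A function field of one variable over a perfect field is finite over `K(t)`** for a suitable
transcendental `t`. -/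
theorem exists_transcendental_finiteDimensional [PerfectField K] [Algebra.EssFiniteType K F]
    (h1 : Module.finrank F Ω[F⁄K] = 1) :
    ∃ t : F, Transcendental K t ∧ FiniteDimensional K⟮t⟯ F := by
  classical
  obtain ⟨s, hs, H⟩ := exists_isTranscendenceBasis_and_isSeparable_of_perfectField K F
  have hsep : Algebra.IsSeparable
      (↥(IntermediateField.adjoin K (Set.range ((↑) : s → F)))) F := by
    convert! H <;> simp
  have hcard := finrank_kaehler_eq_card K F ((↑) : s → F) hs.1
  rw [h1] at hcard
  have hc : s.card = 1 := by simpa using hcard.symm
  obtain ⟨t, rfl⟩ := Finset.card_eq_one.mp hc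
  refine ⟨t, ?_, ?_⟩
  · exact hs.1.transcendental ⟨t, Finset.mem_singleton_self t⟩
  · have hsep' : Algebra.IsSeparable K⟮t⟯ F := by
      convert! H <;> simp
    have : Algebra.IsAlgebraic K⟮t⟯ F := Algebra.IsSeparable.isAlgebraic _ _
    have : Algebra.EssFiniteType K⟮t⟯ F := Algebra.EssFiniteType.of_comp K K⟮t⟯ F
    exact Algebra.finite_of_essFiniteType_of_isAlgebraic

end Fermat.Agent.AV.F1Model15.ChartAlg34
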